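import Fermat.Agent.LT.H129.SplitSpec

/-!
# Row LT, tower T3, sub-leaf T3.18a.4.5.S2 `H129.SplitSectionC129` (helper322), VERBATIM

OFF-MAIN.  `splitSectionC322 K : H129.SplitSectionC129 K` against `LT/H129/SplitSpec.lean`
(helper129@d13fee826, sha256 3547169e).  Mathlib + the Spec closure only.

`X = ((w ↦ (extensionEmbedding w)⁻¹ (z w)), single_{v₀} x₀)`: the embedding of the completion at
a complex place is onto `ℂ`; the components at `v ≠ v₀` are `0 ∈ idealClosure 𝔫 v`.
-/

set_option autoImplicit false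

open IsDedekindDomain NumberField MeasureTheory
open Fermat.Agent.LT.H556.A0 Fermat.Agent.LT.T3.AS Fermat.Agent.LT.T3.AS.N893

noncomputable section

namespace Fermat.Agent.LT.T3.H322

variable (K : Type) [Field K] [NumberField K]

open scoped Classical

/-- The finite adele with component `x` at `v₀` and `0` elsewhere. -/
def finSingle322 (v₀ : HeightOneSpectrum (𝓞 K)) (x : v₀.adicCompletion K) :
    FiniteAdeleRing (𝓞 K) K :=
  RestrictedProduct.single
    (fun v : HeightOneSpectrum (𝓞 K) => v.adicCompletionIntegers K) v₀ x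

theorem finSingle322_same (v₀ : HeightOneSpectrum (𝓞 K)) (x : v₀.adicCompletion K) :
    finSingle322 K v₀ x v₀ = x :=
  RestrictedProduct.single_eq_same
    (fun v : HeightOneSpectrum (𝓞 K) => v.adicCompletionIntegers K) v₀ x

theorem finSingle322_of_ne (v₀ : HeightOneSpectrum (𝓞 K)) (x : v₀.adicCompletion K)
    {v : HeightOneSpectrum (𝓞 K)} (h : v ≠ v₀) : finSingle322 K v₀ x v = 0 :=
  RestrictedProduct.single_eq_of_ne
    (fun v : HeightOneSpectrum (𝓞 K) => v.adicCompletionIntegers K) x h

theorem zero_mem_idealClosure322 (𝔫 : Ideal (𝓞 K)) (v : HeightOneSpectrum (𝓞 K)) :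
    (0 : v.adicCompletion K) ∈ idealClosure 𝔫 v := by
  apply subset_closure
  exact ⟨0, 𝔫.zero_mem, by simp⟩

/-- **S2** (`H129.SplitSectionC129`, verbatim). -/
theorem splitSectionC322 : H129.SplitSectionC129 K := by
  intro hcpx 𝔫 v₀ x₀ z
  choose y hy using fun w : InfinitePlace K =>
    InfinitePlace.Completion.surjective_extensionEmbedding_of_isComplex (hcpx w) (z w)
  refine ⟨((y : InfiniteAdeleRing K), finSingle322 K v₀ x₀), ?_, ?_, ?_⟩
  · intro v hv
    have h1 : finHom K v (((y : InfiniteAdeleRing K), finSingle322 K v₀ x₀) : Adl K)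
        = finSingle322 K v₀ x₀ v := rfl
    rw [h1, finSingle322_of_ne K v₀ x₀ hv]
    exact zero_mem_idealClosure322 K 𝔫 v
  · have h1 : finHom K v₀ (((y : InfiniteAdeleRing K), finSingle322 K v₀ x₀) : Adl K)
        = finSingle322 K v₀ x₀ v₀ := rfl
    rw [h1, finSingle322_same]
  · intro w
    have h1 : infHom K w (((y : InfiniteAdeleRing K), finSingle322 K v₀ x₀) : Adl K)
        = InfinitePlace.Completion.extensionEmbedding w (y w) := rfl
    rw [h1, hy w]

example : H129.SplitSectionC129 K := splitSectionC322 K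

end Fermat.Agent.LT.T3.H322

end
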